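import Fermat.Agent.Pic.Cech.DualBaseChange
import Fermat.Agent.Pic.Cech.Euler
import Fermat.Agent.Pic.Cech.Hom

/-!
# Charts of the degree zero invertible data

`Pulls g L M`: `M` is the pullback of `L` along `g`; `Datum.IsDegZero`: every field valued fibre
has the Euler characteristic of the structure sheaf; `DatumCharts`: affine families of such data
which are open subfunctors and cover, stated at field points.
-/

noncomputable section

open TensorProduct

namespace Fermat.Agent.Pic.Cech

universe u

variable {k : Type u} [Field k] {C : Cover k}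
  {R R' : Type u} [CommRing R] [Algebra k R] [CommRing R'] [Algebra k R']

/-- `M` is the pullback of `L` along `g`. -/
def Pulls (g : R →ₐ[k] R') (L : Pre C R) (M : Pre C R') : Prop :=
  letI : Algebra R R' := g.toRingHom.toAlgebra
  haveI : IsScalarTower k R R' := IsScalarTower.of_algebraMap_eq fun a => (g.commutes a).symm
  Nonempty (BaseChange L M)

/-- A base change is a pullback along the structure map. -/
theorem BaseChange.pulls [Algebra R R'] [IsScalarTower k R R'] {L : Pre C R} {M : Pre C R'}
    (h : BaseChange L M) : Pulls (IsScalarTower.toAlgHom k R R') L M := by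
  have e : (IsScalarTower.toAlgHom k R R').toRingHom.toAlgebra = ‹Algebra R R'› :=
    Algebra.algebra_ext _ _ fun _ => rfl
  unfold Pulls
  convert Nonempty.intro h using 2

/-- Pullbacks can be replaced by isomorphic ones. -/
theorem Pulls.trans {g : R →ₐ[k] R'} {L : Pre C R} {M M' : Pre C R'} (h : Pulls g L M)
    (e : M.Equiv M') : Pulls g L M' := by
  let : Algebra R R' := g.toRingHom.toAlgebra
  have : IsScalarTower k R R' := IsScalarTower.of_algebraMap_eq fun a => (g.commutes a).symm
  obtain ⟨h⟩ := h
  exact ⟨h.trans e⟩

/-- Every field valued fibre has the Euler characteristic of the structure sheaf. -/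
def Datum.IsDegZero (L : Datum C R) : Prop :=
  ∀ (K : Type u) [Field K] [Algebra k K] (g : R →ₐ[k] K) (M : Datum C K),
    Pulls g L.toPre M.toPre → M.toPre.chi = (unitPre C K).chi

variable (C)

/-- Affine families of degree zero data forming open subfunctors which cover, at field points. -/
structure DatumCharts : Type (u + 1) where
  /-- the index -/
  ι : Type u
  /-- the rings of the charts -/
  A : ι → Type u
  [commRing : ∀ i, CommRing (A i)]
  [algebra : ∀ i, Algebra k (A i)]
  smooth : ∀ i, Algebra.Smooth k (A i)
  /-- the families -/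
  Q : ∀ i, Datum C (A i)
  degZero : ∀ i, (Q i).IsDegZero
  mono : ∀ (i : ι) (R : Type u) [CommRing R] [Algebra k R] (g g' : A i →ₐ[k] R) (M : Datum C R),
    Pulls g (Q i).toPre M.toPre → Pulls g' (Q i).toPre M.toPre → g = g'
  exists_open : ∀ (i : ι) (R : Type u) [CommRing R] [Algebra k R] (L : Datum C R), L.IsDegZero →
    ∀ (K : Type u) [Field K] [Algebra k K] (f : R →ₐ[k] K) (g : A i →ₐ[k] K) (M : Datum C K),
      Pulls f L.toPre M.toPre → Pulls g (Q i).toPre M.toPre →
        ∃ h : R, f h ≠ 0 ∧ ∃ (g' : A i →ₐ[k] Localization.Away h)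
          (M' : Datum C (Localization.Away h)),
          Pulls (IsScalarTower.toAlgHom k R (Localization.Away h)) L.toPre M'.toPre ∧
            Pulls g' (Q i).toPre M'.toPre
  cover : ∀ (K : Type u) [Field K] [Algebra k K] [IsAlgClosed K] (L : Datum C K), L.IsDegZero →
    ∃ (i : ι) (g : A i →ₐ[k] K), Pulls g (Q i).toPre L.toPre

attribute [instance] DatumCharts.commRing DatumCharts.algebra

end Fermat.Agent.Pic.Cech

end
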