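import Fermat.Agent.Pic.Chart.GlueOpen

/-!
# The scheme charts of the degree zero functor

The affine schemes of the chart indices, with their families, are smooth charts of the degree zero
functor, to be glued to the scheme representing it.
-/

noncomputable section

universe u

open CategoryTheory CategoryTheory.Limits AlgebraicGeometry AlgebraicCurve TopologicalSpace
open AlgebraicGeometry.RelPicard NeronModelInfra GoodReductionJacobian
open Fermat.Agent.Pic.Cech Fermat.Agent.Pic.Repr Fermat.Agent.Pic.Bridge

namespace Fermat.Agent.Pic.Parameter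

variable {k : Type u} [Field k] [IsAlgClosed k] {C : Scheme.{u}} [IsIntegral C]
  {c : C ⟶ Spec (CommRingCat.of k)} [IsProper c] [SmoothOfRelativeDimension 1 c]
  (p : Parameter c) (D : DatumCharts p.cover) (ε : SchemeHomOver (𝟙 (Spec (CommRingCat.of k))) c)

/-- The affine schemes carrying the families are charts of the degree zero functor. -/
def glueCharts : Repr.Charts (p.degZero ε) where
  ι := p.GlueIndex D ε
  W j := Spec (CommRingCat.of j.Ring)
  w j := specMap k j.Ring
  Q j := j.bundle
  mem j := j.fibresDegZero_bundle
  mono j _ t g g' h := j.eq_of_iso t g g' h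
  exists_open t M hM j := by
    obtain ⟨U, hU, hg⟩ := j.exists_open M hM
    refine ⟨U, hg, fun t' f g h => ?_⟩
    rintro _ ⟨y, rfl⟩
    exact (hU _).2 (j.sees_of_hom M t' f g h y)
  cover t M hM x := by
    obtain ⟨j, hj⟩ := exists_sees D M hM x
    obtain ⟨U, hU, hg⟩ := j.exists_open M hM
    exact ⟨j, U, (hU x).2 hj, hg⟩

/-- The charts are smooth. -/
theorem smooth_glueCharts (j : (p.glueCharts D ε).ι) : Smooth ((p.glueCharts D ε).w j) := by
  have := D.smooth j.1
  have : Algebra.Smooth (D.A j.1) (Localization.Away j.2.1) :=
    Algebra.Smooth.of_isLocalization_Away j.2.1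
  have : Algebra.Smooth k (Localization.Away j.2.1) := Algebra.Smooth.comp k (D.A j.1) _
  show Smooth (Spec.map (CommRingCat.ofHom (algebraMap k (Localization.Away j.2.1))))
  rw [HasRingHomProperty.Spec_iff (P := @Smooth)]
  exact RingHom.smooth_algebraMap.2 this

end Fermat.Agent.Pic.Parameter
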