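import Fermat.Agent.Pic.Cech.Factor
import Fermat.Agent.Pic.Chart.Basic

/-!
# Pullbacks of data compose and are unique

The relation `Pulls g L M` composes, factors through intermediate rings, and determines `M` up to
isomorphism.
-/

noncomputable section

open TensorProduct

namespace Fermat.Agent.Pic.Cech

universe u

variable {k : Type u} [Field k] {C : Cover k} {R R' R'' : Type u} [CommRing R] [Algebra k R]
  [CommRing R'] [Algebra k R'] [CommRing R''] [Algebra k R'']
  {g : R →ₐ[k] R'} {g' : R' →ₐ[k] R''} {P : Pre C R} {P' Q' : Pre C R'} {P'' : Pre C R''}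

/-- Pullbacks compose. -/
theorem Pulls.comp (h : Pulls g P P') (h' : Pulls g' P' P'') : Pulls (g'.comp g) P P'' := by
  let : Algebra R R' := g.toRingHom.toAlgebra
  let : Algebra R' R'' := g'.toRingHom.toAlgebra
  let : Algebra R R'' := (g'.comp g).toRingHom.toAlgebra
  have : IsScalarTower k R R' := IsScalarTower.of_algebraMap_eq fun a => (g.commutes a).symm
  have : IsScalarTower k R' R'' := IsScalarTower.of_algebraMap_eq fun a => (g'.commutes a).symm
  have : IsScalarTower k R R'' :=
    IsScalarTower.of_algebraMap_eq fun a => ((g'.comp g).commutes a).symm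
  have : IsScalarTower R R' R'' := IsScalarTower.of_algebraMap_eq fun _ => rfl
  obtain ⟨h⟩ := h
  obtain ⟨h'⟩ := h'
  exact ⟨h.comp h'⟩

/-- A pullback factors through an intermediate one. -/
theorem Pulls.restrict (h : Pulls g P P') (h'' : Pulls (g'.comp g) P P'') : Pulls g' P' P'' := by
  let : Algebra R R' := g.toRingHom.toAlgebra
  let : Algebra R' R'' := g'.toRingHom.toAlgebra
  let : Algebra R R'' := (g'.comp g).toRingHom.toAlgebra
  have : IsScalarTower k R R' := IsScalarTower.of_algebraMap_eq fun a => (g.commutes a).symm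
  have : IsScalarTower k R' R'' := IsScalarTower.of_algebraMap_eq fun a => (g'.commutes a).symm
  have : IsScalarTower k R R'' :=
    IsScalarTower.of_algebraMap_eq fun a => ((g'.comp g).commutes a).symm
  have : IsScalarTower R R' R'' := IsScalarTower.of_algebraMap_eq fun _ => rfl
  obtain ⟨h⟩ := h
  obtain ⟨h''⟩ := h''
  exact ⟨h.restrict h''⟩

/-- A pullback is unique up to isomorphism. -/
theorem Pulls.nonempty_equiv (h : Pulls g P P') (h' : Pulls g P Q') : Nonempty (P'.Equiv Q') := by
  let : Algebra R R' := g.toRingHom.toAlgebra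
  have : IsScalarTower k R R' := IsScalarTower.of_algebraMap_eq fun a => (g.commutes a).symm
  obtain ⟨h⟩ := h
  obtain ⟨h'⟩ := h'
  exact ⟨h.uniqueEquiv h'⟩

/-- Degree zero passes to pullbacks. -/
theorem Datum.IsDegZero.of_pulls {L : Datum C R} {M : Datum C R'} (hL : L.IsDegZero)
    (h : Pulls g L.toPre M.toPre) : M.IsDegZero :=
  fun K _ _ f N hN => hL K (f.comp g) N (h.comp hN)

end Fermat.Agent.Pic.Cech

end
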