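import Fermat.Agent.Pic.Bridge.Degree
import Fermat.Agent.Pic.Bridge.OfDatum
import Fermat.Agent.Pic.Chart.Pulls

/-!
# Bundles on `C × Spec R` against their data, and points with values in fields

Passage between rigidified bundles over affine bases and their data, and the existence of field
valued points over every point of the base.
-/

noncomputable section

universe u

open CategoryTheory CategoryTheory.Limits AlgebraicGeometry AlgebraicCurve TopologicalSpace
open AlgebraicGeometry.RelPicard NeronModelInfra
open Fermat.Agent.Pic.Cech Fermat.Agent.Pic.Repr Fermat.Agent.Pic.Bridge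

namespace Fermat.Agent.Pic

variable {k : Type u} [Field k] {R R' R'' : Type u} [CommRing R] [Algebra k R] [CommRing R']
  [Algebra k R'] [CommRing R''] [Algebra k R'']

/-- The map of spectra of an algebra map. -/
def algOver (g : R →ₐ[k] R') : SchemeHomOver (specMap k R') (specMap k R) :=
  ⟨Spec.map (CommRingCat.ofHom g.toRingHom), by
    rw [← Spec.map_comp, ← CommRingCat.ofHom_comp]
    exact congrArg (fun h => Spec.map (CommRingCat.ofHom h)) g.comp_algebraMap⟩

theorem algOver_comp (g : R →ₐ[k] R') (g' : R' →ₐ[k] R'') :
    postComp (algOver g) (algOver g') = algOver (g'.comp g) :=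
  Subtype.ext (Spec.map_comp _ _).symm

theorem exists_algOver (f : SchemeHomOver (specMap k R') (specMap k R)) :
    ∃ g : R →ₐ[k] R', algOver g = f := by
  obtain ⟨i, i', rfl⟩ := exists_algebra_specOver f
  exact ⟨IsScalarTower.toAlgHom k R R', rfl⟩

/-- The image of a field point lies in a basic open iff the element is nonzero at the point. -/
theorem algOver_apply_mem_basicOpen_iff {K : Type u} [Field K] [Algebra k K] (g : R →ₐ[k] K)
    (q : Spec (CommRingCat.of K)) (f : R) :
    (algOver g).1 q ∈ PrimeSpectrum.basicOpen f ↔ g f ≠ 0 := by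
  let q' : PrimeSpectrum K := q
  show f ∉ (q'.comap g.toRingHom).asIdeal ↔ _
  rw [PrimeSpectrum.comap_asIdeal, Ideal.mem_comap, Ideal.eq_bot_of_prime q'.asIdeal,
    Ideal.mem_bot]
  rfl

/-- A point with values in a field at any point. -/
theorem exists_field_point {T : Scheme.{u}} (t : T ⟶ Spec (CommRingCat.of k)) (x : T) :
    ∃ (K : Type u) (_ : Field K) (_ : Algebra k K) (f : SchemeHomOver (specMap k K) t)
      (q : Spec (CommRingCat.of K)), f.1 q = x := by
  obtain ⟨R, _, _, φ, -, y, rfl⟩ := exists_affine_chart t x
  obtain ⟨K, _, _, g, q, hg⟩ := exists_residue_point (k := k) y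
  exact ⟨K, _, _, postComp φ g, q, congrArg φ.1 hg⟩

/-- A point with values in an algebraically closed field at any point. -/
theorem exists_closed_field_point {T : Scheme.{u}} (t : T ⟶ Spec (CommRingCat.of k)) (x : T) :
    ∃ (K : Type u) (_ : Field K) (_ : Algebra k K) (_ : IsAlgClosed K)
      (f : SchemeHomOver (specMap k K) t) (q : Spec (CommRingCat.of K)), f.1 q = x := by
  obtain ⟨K, _, _, f, q, hq⟩ := exists_field_point t x
  refine ⟨AlgebraicClosure K, inferInstance, inferInstance, inferInstance,
    postComp f (algOver (IsScalarTower.toAlgHom k K (AlgebraicClosure K))),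
    (default : PrimeSpectrum (AlgebraicClosure K)), ?_⟩
  rw [← hq]
  exact congrArg f.1 (Subsingleton.elim (α := PrimeSpectrum K) _ _)

variable [IsAlgClosed k] {C : Scheme.{u}} [IsIntegral C] {c : C ⟶ Spec (CommRingCat.of k)}
  [IsProper c] [SmoothOfRelativeDimension 1 c] {ε : SchemeHomOver (𝟙 (Spec (CommRingCat.of k))) c}

namespace Parameter

variable (p : Parameter c)

/-- The datum of an invertible module. -/
abbrev datumOf (L : (prodSpec c R).Modules) (hL : L.IsInvertible) : Datum p.cover R :=
  (p.charted R).toDatum L hL

/-- The datum of a bundle. -/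
abbrev datumOfBundle (M : RigidifiedLineBundle c ε (specMap k R)) : Datum p.cover R :=
  p.datumOf M.L M.isInvertible

theorem pulls_datumOf (g : R →ₐ[k] R') (L : (prodSpec c R).Modules) (hL : L.IsInvertible) :
    Pulls g (p.datumOf L hL).toPre
      (p.datumOf ((Scheme.Modules.pullback (baseChangeSnd c (algOver g))).obj L)
        (hL.pullback _)).toPre := by
  let _ : Algebra R R' := g.toRingHom.toAlgebra
  have : IsScalarTower k R R' := IsScalarTower.of_algebraMap_eq fun a => (g.commutes a).symm
  exact Charted.nonempty_baseChange (p.isHom_charted R R') hL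

theorem pulls_datumOfBundle (g : R →ₐ[k] R') (M : RigidifiedLineBundle c ε (specMap k R)) :
    Pulls g (p.datumOfBundle M).toPre (p.datumOfBundle (M.pullbackAlong (algOver g))).toPre :=
  p.pulls_datumOf g M.L M.isInvertible

/-- Bundles are isomorphic iff their data are. -/
theorem iso_iff_datum (M M' : RigidifiedLineBundle c ε (specMap k R)) :
    Nonempty (M.L ≅ M'.L) ↔
      Nonempty ((p.datumOfBundle M).toPre.Equiv (p.datumOfBundle M').toPre) :=
  (p.charted R).nonempty_iso_iff M.isInvertible M'.isInvertible

theorem isDegZero_datumOf {L : (prodSpec c R).Modules} {hL : L.IsInvertible}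
    (h : p.FibresDegZero L hL) : (p.datumOf L hL).IsDegZero := by
  intro K _ _ g N hN
  obtain ⟨e⟩ := hN.nonempty_equiv (p.pulls_datumOf g L hL)
  rw [chi_eq_of_equiv e, chi_unitPre K]
  exact h K (algOver g)

/-- A datum of degree zero has fibres of degree zero. -/
theorem fibresDegZero_of_isDegZero {L : (prodSpec c R).Modules} {hL : L.IsInvertible}
    (h : (p.datumOf L hL).IsDegZero) : p.FibresDegZero L hL := by
  intro K _ _ f
  obtain ⟨g, rfl⟩ := exists_algOver f
  exact (h K g _ (p.pulls_datumOf g L hL)).trans (chi_unitPre K)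

end Parameter

end Fermat.Agent.Pic
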