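import Fermat.Agent.Pic.Chart.GlueBasic
import Fermat.Agent.Pic.Repr.Represent

/-!
# The affine charts of the degree zero functor

An index is a chart of data and a function on it over whose non-zero locus a rigidified bundle
carries the family.
-/

noncomputable section

universe u

open CategoryTheory CategoryTheory.Limits AlgebraicGeometry AlgebraicCurve TopologicalSpace
open AlgebraicGeometry.RelPicard NeronModelInfra
open Fermat.Agent.Pic.Cech Fermat.Agent.Pic.Repr Fermat.Agent.Pic.Bridge

namespace Fermat.Agent.Pic.Parameter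

variable {k : Type u} [Field k] [IsAlgClosed k] {C : Scheme.{u}} [IsIntegral C]
  {c : C ⟶ Spec (CommRingCat.of k)} [IsProper c] [SmoothOfRelativeDimension 1 c]
  (p : Parameter c) (D : DatumCharts p.cover) (ε : SchemeHomOver (𝟙 (Spec (CommRingCat.of k))) c)

/-- `f` carries the family. -/
def Carries (i : D.ι) (f : D.A i) : Prop :=
  ∃ N : RigidifiedLineBundle c ε (specMap k (Localization.Away f)),
    Pulls (IsScalarTower.toAlgHom k (D.A i) (Localization.Away f)) (D.Q i).toPre
      (p.datumOfBundle N).toPre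

/-- The index of the charts. -/
def GlueIndex : Type u := Σ i : D.ι, {f : D.A i // p.Carries D ε i f}

variable {p D ε}

/-- The ring of a chart. -/
abbrev GlueIndex.Ring (j : p.GlueIndex D ε) : Type u := Localization.Away j.2.1

/-- The map to the ring of a chart. -/
abbrev GlueIndex.toRing (j : p.GlueIndex D ε) : D.A j.1 →ₐ[k] j.Ring :=
  IsScalarTower.toAlgHom k (D.A j.1) j.Ring

/-- The bundle of a chart. -/
def GlueIndex.bundle (j : p.GlueIndex D ε) : RigidifiedLineBundle c ε (specMap k j.Ring) :=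
  j.2.2.choose

theorem GlueIndex.pulls_bundle (j : p.GlueIndex D ε) :
    Pulls j.toRing (D.Q j.1).toPre (p.datumOfBundle j.bundle).toPre :=
  j.2.2.choose_spec

theorem GlueIndex.fibresDegZero_bundle (j : p.GlueIndex D ε) :
    p.FibresDegZero j.bundle.L j.bundle.isInvertible :=
  p.fibresDegZero_of_isDegZero ((D.degZero j.1).of_pulls j.pulls_bundle)

/-- A map on which the function of a chart is a unit extends to the ring of the chart. -/
theorem GlueIndex.exists_extend (j : p.GlueIndex D ε) {R : Type u} [CommRing R] [Algebra k R]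
    (g : D.A j.1 →ₐ[k] R) (h : IsUnit (g j.2.1)) :
    ∃ a : j.Ring →ₐ[k] R, a.comp j.toRing = g :=
  ⟨IsLocalization.Away.liftAlgHom j.2.1 h, AlgHom.ext fun x => IsLocalization.Away.lift_eq
    (S := j.Ring) j.2.1 h x⟩

/-- Maps into a chart classify. -/
theorem GlueIndex.iso_iff (j : p.GlueIndex D ε) {R : Type u} [CommRing R] [Algebra k R]
    (a : j.Ring →ₐ[k] R) (M : RigidifiedLineBundle c ε (specMap k R)) :
    Nonempty ((j.bundle.pullbackAlong (algOver a)).L ≅ M.L) ↔
      Pulls (a.comp j.toRing) (D.Q j.1).toPre (p.datumOfBundle M).toPre := by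
  have h := j.pulls_bundle.comp (p.pulls_datumOfBundle a j.bundle)
  rw [p.iso_iff_datum]
  exact ⟨fun ⟨e⟩ => h.trans e, fun h' => h.nonempty_equiv h'⟩

/-- Affine points of a chart are determined by the bundle. -/
theorem GlueIndex.eq_of_iso_affine (j : p.GlueIndex D ε) {R : Type u} [CommRing R] [Algebra k R]
    (g g' : SchemeHomOver (specMap k R) (specMap k j.Ring))
    (h : Nonempty ((j.bundle.pullbackAlong g).L ≅ (j.bundle.pullbackAlong g').L)) : g = g' := by
  obtain ⟨a, rfl⟩ := exists_algOver g
  obtain ⟨a', rfl⟩ := exists_algOver g'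
  have h1 := (j.iso_iff a _).1 h
  have h2 := (j.iso_iff a' _).1 ⟨Iso.refl _⟩
  have h3 := D.mono _ R _ _ _ h1 h2
  exact congrArg algOver (IsLocalization.algHom_ext (Submonoid.powers j.2.1) h3)

/-- Maps into a chart are determined by the bundle. -/
theorem GlueIndex.eq_of_iso (j : p.GlueIndex D ε) {T : Scheme.{u}}
    (t : T ⟶ Spec (CommRingCat.of k)) (g g' : SchemeHomOver t (specMap k j.Ring))
    (h : Nonempty ((j.bundle.pullbackAlong g).L ≅ (j.bundle.pullbackAlong g').L)) : g = g' := by
  choose R i1 i2 φ hφ hy using exists_affine_chart t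
  let 𝒰 : T.OpenCover :=
    { I₀ := T
      X := fun x => Spec (CommRingCat.of (R x))
      f := fun x => (φ x).1
      mem₀ := by
        rw [Scheme.presieve₀_mem_precoverage_iff]
        exact ⟨fun x => ⟨x, hy x⟩, hφ⟩ }
  refine Subtype.ext (𝒰.hom_ext _ _ fun x => congrArg Subtype.val
    (j.eq_of_iso_affine (postComp g (φ x)) (postComp g' (φ x)) ?_))
  exact ⟨(pullbackAlong_postComp g (φ x) _).some.symm ≪≫
    (RigidifiedLineBundle.pullbackAlong_congr (φ x) h).some ≪≫
    (pullbackAlong_postComp g' (φ x) _).some⟩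

/-- The chart sees a family near any point where it sees it. -/
theorem GlueIndex.exists_local (j : p.GlueIndex D ε) {R : Type u} [CommRing R] [Algebra k R]
    (M : RigidifiedLineBundle c ε (specMap k R)) (hM : p.FibresDegZero M.L M.isInvertible)
    {K : Type u} [Field K] [Algebra k K] (a : R →ₐ[k] K) (b : j.Ring →ₐ[k] K)
    (h : Nonempty ((j.bundle.pullbackAlong (algOver b)).L ≅ (M.pullbackAlong (algOver a)).L)) :
    ∃ (R' : Type u) (_ : CommRing R') (_ : Algebra k R') (r : R →ₐ[k] R') (a' : R' →ₐ[k] K)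
      (b' : j.Ring →ₐ[k] R'), a'.comp r = a ∧ IsOpenImmersion (algOver r).1 ∧
      Nonempty ((j.bundle.pullbackAlong (algOver b')).L ≅ (M.pullbackAlong (algOver r)).L) := by
  have hK := (j.iso_iff b _).1 h
  obtain ⟨s, hs, g, N, hLN, hgN⟩ := D.exists_open j.1 R (p.datumOfBundle M)
    (p.isDegZero_datumOf hM) K a (b.comp j.toRing) _ (p.pulls_datumOfBundle a M) hK
  set r₁ := IsScalarTower.toAlgHom k R (Localization.Away s) with hr₁
  obtain ⟨e⟩ := hLN.nonempty_equiv (p.pulls_datumOfBundle r₁ M)
  have hg : Pulls g (D.Q j.1).toPre (p.datumOfBundle (M.pullbackAlong (algOver r₁))).toPre :=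
    hgN.trans e
  let a₁ : Localization.Away s →ₐ[k] K := IsLocalization.Away.liftAlgHom s (IsUnit.mk0 _ hs)
  have ha₁ : a₁.comp r₁ = a := AlgHom.ext fun x => IsLocalization.Away.lift_eq
      (S := Localization.Away s) s (IsUnit.mk0 _ hs) x
  have hab : a₁.comp g = b.comp j.toRing := by
    refine D.mono _ K _ _ _
      (hg.comp (p.pulls_datumOfBundle a₁ (M.pullbackAlong (algOver r₁)))) ?_
    have hi := pullbackAlong_postComp (algOver r₁) (algOver a₁) M
    rw [algOver_comp, ha₁] at hi
    exact hK.trans ((p.iso_iff_datum _ _).1 ⟨hi.some.symm⟩).some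
  have hu : a₁ (g j.2.1) ≠ 0 := by
    rw [← AlgHom.comp_apply, hab]
    exact (((IsLocalization.Away.algebraMap_isUnit (S := j.Ring) j.2.1)).map b).ne_zero
  set r₂ := IsScalarTower.toAlgHom k (Localization.Away s) (Localization.Away (g j.2.1)) with hr₂
  obtain ⟨b', hb'⟩ := j.exists_extend (r₂.comp g)
    (IsLocalization.Away.algebraMap_isUnit (S := Localization.Away (g j.2.1)) (g j.2.1))
  let a' : Localization.Away (g j.2.1) →ₐ[k] K :=
    IsLocalization.Away.liftAlgHom (g j.2.1) (IsUnit.mk0 _ hu)
  have ha' : a'.comp r₂ = a₁ := AlgHom.ext fun x => IsLocalization.Away.lift_eq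
      (S := Localization.Away (g j.2.1)) (g j.2.1) (IsUnit.mk0 _ hu) x
  refine ⟨_, inferInstance, inferInstance, r₂.comp r₁, a', b',
    by rw [← AlgHom.comp_assoc, ha', ha₁], ?_, ?_⟩
  · rw [← algOver_comp]
    have h1 : IsOpenImmersion (algOver r₁).1 := IsOpenImmersion.of_isLocalization s
    have h2 : IsOpenImmersion (algOver r₂).1 := IsOpenImmersion.of_isLocalization (g j.2.1)
    show IsOpenImmersion ((algOver r₂).1 ≫ (algOver r₁).1)
    infer_instance
  · rw [j.iso_iff, hb']
    have hi := pullbackAlong_postComp (algOver r₁) (algOver r₂) M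
    rw [algOver_comp] at hi
    exact (hg.comp (p.pulls_datumOfBundle r₂ _)).trans
      ((p.iso_iff_datum _ _).1 hi).some

end Fermat.Agent.Pic.Parameter
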