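import Fermat.Agent.Pic.Chart.GlueLocal

/-!
# Each chart is an open subfunctor, and the charts cover

For each chart index the locus where a family comes from the chart is open, and every family is
seen near every point by some chart.
-/

noncomputable section

universe u

open CategoryTheory CategoryTheory.Limits AlgebraicGeometry AlgebraicCurve TopologicalSpace
open AlgebraicGeometry.RelPicard NeronModelInfra
open Fermat.Agent.Pic.Cech Fermat.Agent.Pic.Repr Fermat.Agent.Pic.Bridge

namespace Fermat.Agent.Pic.Parameter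

variable {k : Type u} [Field k] [IsAlgClosed k] {C : Scheme.{u}} [IsIntegral C]
  {c : C ⟶ Spec (CommRingCat.of k)} [IsProper c] [SmoothOfRelativeDimension 1 c]
  {p : Parameter c} {D : DatumCharts p.cover} {ε : SchemeHomOver (𝟙 (Spec (CommRingCat.of k))) c}
  {T : Scheme.{u}} {t : T ⟶ Spec (CommRingCat.of k)}

/-- A chart sees the family at a point. -/
def GlueIndex.Sees (j : p.GlueIndex D ε) (M : RigidifiedLineBundle c ε t) (x : T) : Prop :=
  ∃ (K : Type u) (_ : Field K) (_ : Algebra k K) (f : SchemeHomOver (specMap k K) t)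
    (q : Spec (CommRingCat.of K)) (g : SchemeHomOver (specMap k K) (specMap k j.Ring)),
    f.1 q = x ∧ Nonempty ((j.bundle.pullbackAlong g).L ≅ (M.pullbackAlong f).L)

theorem GlueIndex.sees_of_hom (j : p.GlueIndex D ε) (M : RigidifiedLineBundle c ε t)
    {T' : Scheme.{u}} (t' : T' ⟶ Spec (CommRingCat.of k)) (f : SchemeHomOver t' t)
    (g : SchemeHomOver t' (specMap k j.Ring))
    (h : Nonempty ((j.bundle.pullbackAlong g).L ≅ (M.pullbackAlong f).L)) (y : T') :
    j.Sees M (f.1 y) := by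
  obtain ⟨K, _, _, z, q, rfl⟩ := exists_field_point t' y
  exact ⟨K, _, _, postComp f z, q, postComp g z, rfl,
    ⟨(pullbackAlong_postComp g z _).some.symm ≪≫
      (RigidifiedLineBundle.pullbackAlong_congr z h).some ≪≫
      (pullbackAlong_postComp f z _).some⟩⟩

/-- A point seen by a chart has an affine neighbourhood mapping to the chart. -/
theorem GlueIndex.exists_nhd (j : p.GlueIndex D ε) (M : RigidifiedLineBundle c ε t)
    (hM : p.FibresDegZero M.L M.isInvertible) {x : T} (hx : j.Sees M x) :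
    ∃ (R : Type u) (_ : CommRing R) (_ : Algebra k R) (ψ : SchemeHomOver (specMap k R) t)
      (g : SchemeHomOver (specMap k R) (specMap k j.Ring)),
      IsOpenImmersion ψ.1 ∧ x ∈ Set.range ψ.1 ∧
      Nonempty ((j.bundle.pullbackAlong g).L ≅ (M.pullbackAlong ψ).L) := by
  obtain ⟨K, _, _, f, q, g, hq, h⟩ := hx
  obtain ⟨R, _, _, φ, hφ, hxφ⟩ := exists_affine_chart t x
  obtain ⟨f', hf'⟩ := exists_lift_field φ f q (hq.symm ▸ hxφ)
  obtain ⟨a, rfl⟩ := exists_algOver f'
  obtain ⟨b, rfl⟩ := exists_algOver g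
  subst hf'
  obtain ⟨R', _, _, r, a', b', hr, hopen, hiso⟩ := j.exists_local (M.pullbackAlong φ)
    (hM.pullback φ) a b ⟨h.some ≪≫ (pullbackAlong_postComp φ (algOver a) M).some.symm⟩
  refine ⟨R', _, _, postComp φ (algOver r), algOver b', ?_, ⟨(algOver a').1 q, ?_⟩,
    ⟨hiso.some ≪≫ (pullbackAlong_postComp φ (algOver r) M).some⟩⟩
  · show IsOpenImmersion ((algOver r).1 ≫ φ.1)
    infer_instance
  · rw [← hq, ← hr, ← algOver_comp]
    rfl

/-- Each chart is an open subfunctor. -/
theorem GlueIndex.exists_open (j : p.GlueIndex D ε) (M : RigidifiedLineBundle c ε t)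
    (hM : p.FibresDegZero M.L M.isInvertible) :
    ∃ U : T.Opens, (∀ x, x ∈ U ↔ j.Sees M x) ∧
      ∃ g : SchemeHomOver (U.ι ≫ t) (specMap k j.Ring),
        Nonempty ((j.bundle.pullbackAlong g).L ≅ (M.pullbackAlong (openOver t U)).L) := by
  choose R i1 i2 ψ g hψ hxψ hiso using fun x : {x : T // j.Sees M x} => j.exists_nhd M hM x.2
  have hsub : ∀ x, Set.range (ψ x).1 ⊆ {y | j.Sees M y} := by
    rintro x _ ⟨y, rfl⟩
    exact j.sees_of_hom M _ (ψ x) (g x) (hiso x) y
  have hopen : IsOpen {y | j.Sees M y} := isOpen_iff_forall_mem_open.2 fun y hy =>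
    ⟨_, hsub ⟨y, hy⟩, (hψ ⟨y, hy⟩).base_open.isOpen_range, hxψ ⟨y, hy⟩⟩
  let U : T.Opens := ⟨_, hopen⟩
  refine ⟨U, fun _ => Iff.rfl, ?_⟩
  have hr : ∀ x, Set.range (ψ x).1 ⊆ Set.range U.ι := fun x => by
    rw [Scheme.Opens.range_ι]
    exact hsub x
  let ψ' : ∀ x, SchemeHomOver (specMap k (R x)) (U.ι ≫ t) := fun x =>
    ⟨IsOpenImmersion.lift U.ι (ψ x).1 (hr x), by
      rw [← Category.assoc, IsOpenImmersion.lift_fac]; exact (ψ x).2⟩
  have hψ' : ∀ x, postComp (openOver t U) (ψ' x) = ψ x := fun x =>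
    Subtype.ext (IsOpenImmersion.lift_fac _ _ _)
  have hoi : ∀ x, IsOpenImmersion (ψ' x).1 := fun x => by
    have : IsOpenImmersion ((ψ' x).1 ≫ U.ι) := by
      show IsOpenImmersion (IsOpenImmersion.lift U.ι (ψ x).1 (hr x) ≫ U.ι)
      rw [IsOpenImmersion.lift_fac]
      exact hψ x
    exact IsOpenImmersion.of_comp _ U.ι
  have hcov : ∀ y : U.toScheme, ∃ x, y ∈ Set.range (ψ' x).1 := fun y => by
    have hy : j.Sees M (U.ι y) := by
      have : U.ι y ∈ Set.range U.ι := ⟨y, rfl⟩
      rwa [Scheme.Opens.range_ι] at this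
    obtain ⟨z, hz⟩ := hxψ ⟨_, hy⟩
    exact ⟨_, z, U.ι.isOpenEmbedding.injective
      ((congrArg (fun φ => φ.1 z) (hψ' ⟨_, hy⟩)).trans hz)⟩
  have hN : ∀ x, Nonempty ((j.bundle.pullbackAlong (g x)).L ≅
      ((M.pullbackAlong (openOver t U)).pullbackAlong (ψ' x)).L) := fun x => by
    have h1 := pullbackAlong_postComp (openOver t U) (ψ' x) M
    rw [hψ'] at h1
    exact ⟨(hiso x).some ≪≫ h1.some.symm⟩
  obtain ⟨G, hG⟩ := exists_glue_cover ψ' hcov g fun x y {Z} z a b e =>
    j.eq_of_iso z (postComp (g x) a) (postComp (g y) b)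
      ⟨(pullbackAlong_postComp (g x) a _).some.symm ≪≫
        (RigidifiedLineBundle.pullbackAlong_congr a (hN x)).some ≪≫
        (pullbackAlong_postComp (ψ' x) a _).some ≪≫ eqToIso (by rw [e]) ≪≫
        (pullbackAlong_postComp (ψ' y) b _).some.symm ≪≫
        (RigidifiedLineBundle.pullbackAlong_congr b (hN y)).some.symm ≪≫
        (pullbackAlong_postComp (g y) b _).some⟩
  refine ⟨G, iso_of_cover ψ' (hasTrivialFunctions p) hcov _ _ fun x => ?_⟩
  have h1 := pullbackAlong_postComp G (ψ' x) j.bundle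
  rw [hG] at h1
  exact ⟨h1.some ≪≫ (hN x).some⟩

variable (D ε)

/-- A field point of a family lies in a basic open carrying the family. -/
theorem exists_carries (i : D.ι) {K : Type u} [Field K] [Algebra k K]
    (g : D.A i →ₐ[k] K) :
    ∃ f : D.A i, g f ≠ 0 ∧ p.Carries D ε i f := by
  obtain ⟨L, hL, ⟨e⟩⟩ := (p.charted (D.A i)).exists_module (D.Q i)
  let σ := rigSection c (specMap k (D.A i)) ε
  obtain ⟨U, hxU, ⟨eU⟩⟩ :=
    (hL.pullback σ).exists_trivialization ((algOver g).1 (default : PrimeSpectrum K))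
  obtain ⟨_, ⟨f, rfl⟩, hxf, hfU⟩ :=
    PrimeSpectrum.isTopologicalBasis_basic_opens.exists_subset_of_mem_open hxU U.2
  have hf : g f ≠ 0 := (algOver_apply_mem_basicOpen_iff g _ f).1 hxf
  refine ⟨f, hf, ?_⟩
  set r := IsScalarTower.toAlgHom k (D.A i) (Localization.Away f) with hr
  have hrange : Set.range (algOver r).1 ⊆ Set.range U.ι := by
    rw [Scheme.Opens.range_ι]
    exact (PrimeSpectrum.localization_away_comap_range (Localization.Away f) f).trans_subset hfU
  let l := IsOpenImmersion.lift U.ι (algOver r).1 hrange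
  have hl : (algOver r).1 = l ≫ U.ι := (IsOpenImmersion.lift_fac _ _ _).symm
  let e' : (Scheme.Modules.pullback (rigSection c (specMap k (Localization.Away f)) ε)).obj
      ((Scheme.Modules.pullback (baseChangeSnd c (algOver r))).obj L) ≅
      SheafOfModules.unit (Spec (CommRingCat.of (Localization.Away f))).ringCatSheaf :=
    (Scheme.Modules.pullbackComp _ _).app L ≪≫
    (Scheme.Modules.pullbackCongr (rigSection_baseChangeSnd c ε (algOver r))).app L ≪≫
    ((Scheme.Modules.pullbackComp _ _).app L).symm ≪≫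
    (Scheme.Modules.pullbackCongr hl).app _ ≪≫
    ((Scheme.Modules.pullbackComp _ _).app _).symm ≪≫
    (Scheme.Modules.pullback l).mapIso eU ≪≫ Scheme.Modules.pullbackUnitIso l
  refine ⟨⟨_, hL.pullback _, ⟨e'⟩⟩, ?_⟩
  have h0 : Pulls r (D.Q i).toPre ((p.datumOf L hL).baseChange (Localization.Away f)).toPre :=
    BaseChange.pulls (((D.Q i).toPre.toBaseChange _).trans (e.baseChange _))
  have h1 : Pulls r (p.datumOf L hL).toPre
      ((p.datumOf L hL).baseChange (Localization.Away f)).toPre :=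
    BaseChange.pulls ((p.datumOf L hL).toPre.toBaseChange _)
  obtain ⟨e₁⟩ := h1.nonempty_equiv (p.pulls_datumOf r L hL)
  exact h0.trans e₁

variable {ε}

/-- Every family is seen near every point by some chart. -/
theorem exists_sees (M : RigidifiedLineBundle c ε t) (hM : p.FibresDegZero M.L M.isInvertible)
    (x : T) : ∃ j : p.GlueIndex D ε, j.Sees M x := by
  obtain ⟨K, _, _, _, f, q, hq⟩ := exists_closed_field_point t x
  obtain ⟨i, g, hg⟩ := D.cover K _ (p.isDegZero_datumOf (hM.pullback f))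
  obtain ⟨h, hgh, hh⟩ := exists_carries D ε i g
  let j : p.GlueIndex D ε := ⟨i, h, hh⟩
  obtain ⟨a, ha⟩ := j.exists_extend g (IsUnit.mk0 _ hgh)
  refine ⟨j, K, _, _, f, q, algOver a, hq, ?_⟩
  rw [j.iso_iff, ha]
  exact hg

end Fermat.Agent.Pic.Parameter
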