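import Fermat.Agent.Pic.Chart.Ops
import Fermat.Agent.Pic.Field.Index

/-!
# The charts of the degree zero data

An index is a twisted ideal `N` of rational points, a family `e` of the size of the genus and a
basic open subset of the scheme of quotients with basis `e` on which the divisor has no `H¹` and
`O(D) ⊗ N⁻¹` has degree zero.  They cover, and their families are monomorphisms.
-/

noncomputable section

open TensorProduct

namespace Fermat.Agent.Pic.Chart

open Fermat.Agent.Pic.Cech Fermat.Agent.Pic.Field

universe u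

variable {k : Type u} [Field k] [IsAlgClosed k] (C : Cover k) [C.SmoothCharts]

/-- The twisted ideal of rational points over a base. -/
def twistDatum (S : Finset (C.B01 →ₐ[k] k)) (n : ℕ) (R : Type u) [CommRing R] [Algebra k R] :
    Datum C R :=
  (pointsDatum S n).baseChange R

variable {C}

/-- A quotient restricted to a basic open of the universal one. -/
abbrev basicPt {ι : Type u} [Fintype ι] [DecidableEq ι] (e : ι → C.B01)
    (f : Hilb.HRing k e) : Hilb.Pt k e (Localization.Away f) :=
  (Hilb.univ k e).map (IsScalarTower.toAlgHom k (Hilb.HRing k e) (Localization.Away f))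

variable (C) in
/-- An index of a chart. -/
structure Index : Type u where
  /-- the rational points -/
  S : Finset (C.B01 →ₐ[k] k)
  /-- the twist -/
  n : ℕ
  /-- the basis -/
  e : ULift.{u} (Fin C.genus) → C.B01
  /-- the open subset -/
  f : Hilb.HRing k e
  good : IsGood (basicPt e f)
  degZero : ((divisorDatum (basicPt e f)).tensor
    (twistDatum C S n (Localization.Away f)).dual).IsDegZero

namespace Index

variable (i : Index C)

/-- The ring of a chart. -/
abbrev A : Type u := Localization.Away i.f

/-- The family of a chart. -/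
def Q : Datum C i.A :=
  (divisorDatum (basicPt i.e i.f)).tensor (twistDatum C i.S i.n i.A).dual

omit [IsAlgClosed k] [C.SmoothCharts] in
theorem pulls_dual {R R' : Type u} [CommRing R] [Algebra k R] [CommRing R'] [Algebra k R']
    {g : R →ₐ[k] R'} {L : Datum C R} {L' : Datum C R'} (h : Pulls g L.toPre L'.toPre) :
    Pulls g L.dual.toPre L'.dual.toPre := by
  let : Algebra R R' := g.toRingHom.toAlgebra
  have : IsScalarTower k R R' := IsScalarTower.of_algebraMap_eq fun a => (g.commutes a).symm
  obtain ⟨h⟩ := h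
  exact ⟨h.dual⟩

/-- The pullbacks of the family of a chart. -/
theorem pulls_Q {R : Type u} [CommRing R] [Algebra k R] (g : i.A →ₐ[k] R) :
    Pulls g i.Q.toPre ((divisorDatum ((basicPt i.e i.f).map g)).tensor
      (twistDatum C i.S i.n R).dual).toPre :=
  (pulls_divisorDatum g _).tensor (pulls_dual (pulls_baseChange g _))

/-- The divisor of a point of a chart from a pullback of its family. -/
theorem nonempty_divisor_equiv {R : Type u} [CommRing R] [Algebra k R] {g : i.A →ₐ[k] R}
    {M : Datum C R} (h : Pulls g i.Q.toPre M.toPre) :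
    Nonempty ((divisorDatum ((basicPt i.e i.f).map g)).toPre.Equiv
      (M.tensor (twistDatum C i.S i.n R)).toPre) := by
  obtain ⟨E⟩ := (i.pulls_Q g).nonempty_equiv h
  exact ⟨(Datum.cancelDual _ _).symm.trans (Datum.tensorCongr E (Pre.Equiv.refl _))⟩

/-- A point of the scheme of quotients in the open subset of a chart gives a map to the chart. -/
theorem exists_pulls {R : Type u} [CommRing R] [Algebra k R] (g₀ : Hilb.HRing k i.e →ₐ[k] R)
    (hu : IsUnit (g₀ i.f)) {L : Datum C R}
    (E : ((divisorDatum ((Hilb.univ k i.e).map g₀)).tensor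
      (twistDatum C i.S i.n R).dual).toPre.Equiv L.toPre) :
    ∃ g : i.A →ₐ[k] R, Pulls g i.Q.toPre L.toPre := by
  let g : i.A →ₐ[k] R := IsLocalization.Away.liftAlgHom i.f hu
  have hg : (basicPt i.e i.f).map g = (Hilb.univ k i.e).map g₀ := by
    refine Hilb.Pt.ext (LinearMap.ext fun b => funext fun l => ?_)
    rw [Hilb.Pt.map_π, Hilb.Pt.map_π, Hilb.Pt.map_π]
    exact IsLocalization.Away.lift_eq _ hu _
  have h := i.pulls_Q g
  rw [hg] at h
  exact ⟨g, h.trans E⟩

omit [IsAlgClosed k] [C.SmoothCharts] in
theorem card_basis : Fintype.card (ULift.{u} (Fin C.genus)) = C.genus := by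
  rw [Fintype.card_ulift, Fintype.card_fin]

theorem basicPt_map_injective {R : Type u} [CommRing R] [Algebra k R] {g g' : i.A →ₐ[k] R}
    (h : (basicPt i.e i.f).map g = (basicPt i.e i.f).map g') : g = g' := by
  let j := IsScalarTower.toAlgHom k (Hilb.HRing k i.e) i.A
  have h' : g.comp j = g'.comp j := (Hilb.homEquiv k i.e R).injective h
  refine AlgHom.coe_ringHom_injective ?_
  exact IsLocalization.ringHom_ext (Submonoid.powers i.f) (congrArg AlgHom.toRingHom h')

/-- The family of a chart separates its points. -/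
theorem eq_of_pulls {R : Type u} [CommRing R] [Algebra k R] {g g' : i.A →ₐ[k] R} {M : Datum C R}
    (h : Pulls g i.Q.toPre M.toPre) (h' : Pulls g' i.Q.toPre M.toPre) : g = g' := by
  obtain ⟨E⟩ := i.nonempty_divisor_equiv h
  obtain ⟨E'⟩ := i.nonempty_divisor_equiv h'
  exact i.basicPt_map_injective
    ((i.good.map_algHom g').eq_of_equiv card_basis (E.trans E'.symm))

/-- The charts are smooth. -/
theorem smooth : Algebra.Smooth k i.A := by
  have := C.finiteType01
  have := Cover.SmoothCharts.dedekind01 (C := C)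
  have hH : Algebra.Smooth k (Hilb.HRing k i.e) :=
    Hilb.smooth_of_projective fun R _ _ x => by
      have := x.invertible_ideal (Cover.SmoothCharts.not_isField01 (C := C))
      exact ⟨inferInstance, inferInstance⟩
  have : Algebra.Smooth (Hilb.HRing k i.e) i.A :=
    Algebra.Smooth.of_isLocalization_Away i.f
  exact Algebra.Smooth.comp k (Hilb.HRing k i.e) i.A

end Index

/-- A locally constant function is constant on a basic open around each point. -/
theorem exists_basicOpen_of_isLocallyConstant {R : Type u} [CommRing R] {r : PrimeSpectrum R → ℤ}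
    (hr : IsLocallyConstant r) (p : PrimeSpectrum R) :
    ∃ f : R, f ∉ p.asIdeal ∧ ∀ q : PrimeSpectrum R, f ∉ q.asIdeal → r q = r p := by
  obtain ⟨_, ⟨f, rfl⟩, hpf, hf⟩ :=
    PrimeSpectrum.isTopologicalBasis_basic_opens.exists_subset_of_mem_open
      (show p ∈ {q | r q = r p} from rfl) (hr.isOpen_fiber _)
  exact ⟨f, hpf, fun q hq => hf hq⟩

omit [IsAlgClosed k] [C.SmoothCharts] in
/-- Near a point with no `H¹` there is none. -/
theorem exists_away_surjective {R : Type u} [CommRing R] [Algebra k R] (L : Datum C R)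
    {K : Type u} [Field K] [Algebra k K] (f : R →ₐ[k] K) {M : Datum C K}
    (hM : Pulls f L.toPre M.toPre) (hd : Function.Surjective M.toPre.diff) :
    ∃ h : R, f h ≠ 0 ∧ ∀ (R' : Type u) [CommRing R'] [Algebra k R'] (g : R →ₐ[k] R')
      (M' : Datum C R'), IsUnit (g h) → Pulls g L.toPre M'.toPre →
        Function.Surjective M'.toPre.diff := by
  let : Algebra R K := f.toRingHom.toAlgebra
  have : IsScalarTower k R K := IsScalarTower.of_algebraMap_eq fun a => (f.commutes a).symm
  obtain ⟨hM⟩ := hM
  have := L.toPre.finite_H1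
  have : Subsingleton (K ⊗[R] L.toPre.H1) := hM.diff_surjective_iff.mp hd
  obtain ⟨h, hh, hann⟩ := exists_annihilator_of_field (R := R) (K := K) (Q := L.toPre.H1)
  refine ⟨h, hh, fun R' _ _ g M' hu hM' => ?_⟩
  let : Algebra R R' := g.toRingHom.toAlgebra
  have : IsScalarTower k R R' := IsScalarTower.of_algebraMap_eq fun a => (g.commutes a).symm
  obtain ⟨hM'⟩ := hM'
  exact hM'.diff_surjective_iff.mpr (subsingleton_tensor_of_annihilator hann hu)

/-- Near a point of degree zero every fibre has degree zero. -/
theorem exists_away_degZero {R : Type u} [CommRing R] [Algebra k R] (L : Datum C R)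
    {K : Type u} [Field K] [Algebra k K] (f : R →ₐ[k] K) {M : Datum C K}
    (hM : Pulls f L.toPre M.toPre) (hd : M.toPre.chi = (unitPre C K).chi) :
    ∃ h : R, f h ≠ 0 ∧ ∀ (R' : Type u) [CommRing R'] [Algebra k R'] (g : R →ₐ[k] R')
      (M' : Datum C R'), IsUnit (g h) → Pulls g L.toPre M'.toPre → M'.IsDegZero := by
  obtain ⟨r, hr, hchi⟩ := L.exists_chi
  let : Algebra R K := f.toRingHom.toAlgebra
  have : IsScalarTower k R K := IsScalarTower.of_algebraMap_eq fun a => (f.commutes a).symm
  obtain ⟨hM⟩ := hM
  let p : PrimeSpectrum R := (default : PrimeSpectrum K).comap (algebraMap R K)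
  have hrp : r p = 1 - C.genus := by
    rw [← hchi K M hM, hd, chi_unit]
  obtain ⟨h, hh, hconst⟩ := exists_basicOpen_of_isLocallyConstant hr p
  refine ⟨h, fun h0 => hh (show h ∈ p.asIdeal from ?_), fun R' _ _ g M' hu hM' K' _ _ φ N hN => ?_⟩
  · show f h ∈ (default : PrimeSpectrum K).asIdeal
    rw [h0]; exact zero_mem _
  let : Algebra R K' := (φ.comp g).toRingHom.toAlgebra
  have : IsScalarTower k R K' :=
    IsScalarTower.of_algebraMap_eq fun a => ((φ.comp g).commutes a).symm
  obtain ⟨hN'⟩ : Nonempty (BaseChange L.toPre N.toPre) := hM'.comp hN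
  have hq := hchi K' N hN' default
  rw [hconst _ fun hmem => ?_, hrp, ← chi_unit (K := K')] at hq
  · exact hq
  · exact (default : PrimeSpectrum K').2.ne_top
      (Ideal.eq_top_of_isUnit_mem _ hmem (hu.map φ))

/-- The charts cover. -/
theorem exists_index_pulls [C.HasPoints] (K : Type u) [Field K] [Algebra k K] (L : Datum C K)
    (hL : L.IsDegZero) :
    ∃ (i : Index C) (g : i.A →ₐ[k] K), Pulls g i.Q.toPre L.toPre := by
  obtain ⟨S, n, e, hd, s, hs⟩ := exists_index L
  obtain ⟨E₀⟩ : Nonempty ((twistDatum C S n K).toPre.Equiv (pointsDatumOver K S n).toPre) :=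
    ⟨((pointsDatum S n).toPre.toBaseChange K).uniqueEquiv (pointsBaseChange K S n)⟩
  obtain ⟨x, -, ⟨E⟩⟩ := exists_pt_of_cuts _ e s hs
  have hx : IsGood x := E.symm.diff_surjective hd
  have hxu : (Hilb.univ k e).map x.toHom = x := (Hilb.homEquiv k e K).right_inv x
  let EL : ((divisorDatum x).tensor (twistDatum C S n K).dual).toPre.Equiv L.toPre :=
    (Datum.tensorCongr E (Pre.Equiv.refl _)).trans
      ((Datum.tensorCongr (Datum.tensorCongr (Pre.Equiv.refl L.toPre) E₀.symm)
        (Pre.Equiv.refl _)).trans (Datum.cancelDual' _ _))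
  let D₀ : Datum C (Hilb.HRing k e) := divisorDatum (Hilb.univ k e)
  let Q₀ : Datum C (Hilb.HRing k e) := D₀.tensor (twistDatum C S n _).dual
  have hD₀ : Pulls x.toHom D₀.toPre (divisorDatum x).toPre := by
    have := pulls_divisorDatum x.toHom (Hilb.univ k e)
    rwa [hxu] at this
  have hQ₀ : Pulls x.toHom Q₀.toPre L.toPre :=
    (hD₀.tensor (Index.pulls_dual (pulls_baseChange x.toHom _))).trans EL
  obtain ⟨h₁, hh₁, hgood⟩ := exists_away_surjective D₀ x.toHom hD₀ hx
  obtain ⟨h₂, hh₂, hdeg⟩ := exists_away_degZero Q₀ x.toHom hQ₀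
    (hL K (AlgHom.id k K) L (pulls_id _))
  let f := h₁ * h₂
  let j := IsScalarTower.toAlgHom k (Hilb.HRing k e) (Localization.Away f)
  have hu : IsUnit (j f) := IsLocalization.Away.algebraMap_isUnit f
  rw [map_mul, IsUnit.mul_iff] at hu
  let i : Index C :=
    { S := S
      n := n
      e := e
      f := f
      good := hgood _ j _ hu.1 (pulls_divisorDatum j _)
      degZero := hdeg _ j _ hu.2
        ((pulls_divisorDatum j _).tensor (Index.pulls_dual (pulls_baseChange j _))) }
  have hf : IsUnit (x.toHom f) := by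
    rw [isUnit_iff_ne_zero, map_mul]
    exact mul_ne_zero hh₁ hh₂
  exact ⟨i, i.exists_pulls x.toHom hf (by rw [hxu]; exact EL)⟩

end Fermat.Agent.Pic.Chart

end
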