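import Fermat.Agent.Pic.Cech.Open
import Fermat.Agent.Pic.Chart.Index

/-!
# The charts of degree zero data are open and cover

The families with a fixed index are open, and every degree zero datum lies in one of them; this
gives the charts of degree zero data.
-/

noncomputable section

open TensorProduct

namespace Fermat.Agent.Pic.Chart

open Fermat.Agent.Pic.Cech Fermat.Agent.Pic.Field

universe u

variable {k : Type u} [Field k] [IsAlgClosed k] {C : Cover k} [C.SmoothCharts]

omit [IsAlgClosed k] [C.SmoothCharts] in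
theorem pt_map_map {R R' : Type u} [CommRing R] [Algebra k R] [CommRing R'] [Algebra k R']
    {ι : Type u} [Fintype ι] [DecidableEq ι] {e : ι → C.B01} (x : Hilb.Pt k e R)
    (g : R →ₐ[k] R') : (Hilb.univ k e).map (g.comp x.toHom) = x.map g := by
  conv_rhs => rw [← (Hilb.homEquiv k e R).right_inv x]
  rfl

/-- The family of a chart is open. -/
theorem Index.exists_open (i : Index C) (R : Type u) [CommRing R] [Algebra k R] (L : Datum C R)
    (K : Type u) [Field K] [Algebra k K] (f : R →ₐ[k] K) (g : i.A →ₐ[k] K) (M : Datum C K)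
    (hL : Pulls f L.toPre M.toPre) (hQ : Pulls g i.Q.toPre M.toPre) :
    ∃ h : R, f h ≠ 0 ∧ ∃ (g' : i.A →ₐ[k] Localization.Away h)
      (M' : Datum C (Localization.Away h)),
      Pulls (IsScalarTower.toAlgHom k R (Localization.Away h)) L.toPre M'.toPre ∧
        Pulls g' i.Q.toPre M'.toPre := by
  let L' : Datum C R := L.tensor (twistDatum C i.S i.n R)
  let M' : Datum C K := M.tensor (twistDatum C i.S i.n K)
  have hL' : Pulls f L'.toPre M'.toPre := hL.tensor (pulls_baseChange f _)
  obtain ⟨E⟩ := i.nonempty_divisor_equiv hQ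
  have hc : M'.toPre.IsChartable i.e :=
    ⟨E.diff_surjective (i.good.map_algHom g), _, (cuts_canonicalSection _).map i.e E⟩
  obtain ⟨h₁, hh₁, x, hx, ⟨E₁⟩⟩ : ∃ h₁ : R, f h₁ ≠ 0 ∧ ∃ x : Hilb.Pt k i.e (Localization.Away h₁),
      IsGood x ∧ Nonempty ((divisorDatum x).toPre.Equiv
        (L'.baseChange (Localization.Away h₁)).toPre) := by
    let : Algebra R K := f.toRingHom.toAlgebra
    have : IsScalarTower k R K := IsScalarTower.of_algebraMap_eq fun a => (f.commutes a).symm
    obtain ⟨hb⟩ := hL'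
    exact L'.exists_chart Index.card_basis M' hb hc
  let j₁ := IsScalarTower.toAlgHom k R (Localization.Away h₁)
  have hu₁ : IsUnit (f h₁) := isUnit_iff_ne_zero.mpr hh₁
  let φ : Localization.Away h₁ →ₐ[k] K := IsLocalization.Away.liftAlgHom h₁ hu₁
  have hφ : ∀ a, φ (j₁ a) = f a := fun a => IsLocalization.Away.lift_eq _ hu₁ a
  have hbase : Pulls j₁ L'.toPre (L'.baseChange (Localization.Away h₁)).toPre :=
    (L'.toPre.toBaseChange _).pulls
  have hφM : Pulls φ (L'.baseChange (Localization.Away h₁)).toPre M'.toPre := by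
    refine hbase.restrict ?_
    rwa [show φ.comp j₁ = f from AlgHom.ext hφ]
  obtain ⟨E₂⟩ := (hφM.of_equiv E₁).nonempty_equiv (pulls_divisorDatum φ x)
  have hxg : x.map φ = (basicPt i.e i.f).map g :=
    (i.good.map_algHom g).eq_of_equiv Index.card_basis (E₂.symm.trans E.symm)
  let j := IsScalarTower.toAlgHom k (Hilb.HRing k i.e) i.A
  have hcomp : φ.comp x.toHom = g.comp j :=
    (Hilb.homEquiv k i.e K).injective ((pt_map_map x φ).trans hxg)
  have hu : φ (x.toHom i.f) ≠ 0 := by
    rw [← AlgHom.comp_apply φ, hcomp, AlgHom.comp_apply]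
    exact ((IsLocalization.Away.algebraMap_isUnit i.f).map g).ne_zero
  obtain ⟨l, a, ha⟩ := IsLocalization.Away.surj h₁ (x.toHom i.f)
  have hfa : f a ≠ 0 := by
    rw [← hφ a, show j₁ a = algebraMap R _ a from rfl, ← ha, map_mul, map_pow,
      show φ (algebraMap R _ h₁) = f h₁ from hφ h₁]
    exact mul_ne_zero hu (pow_ne_zero _ hh₁)
  refine ⟨h₁ * a, by rw [map_mul]; exact mul_ne_zero hh₁ hfa, ?_⟩
  let R₂ := Localization.Away (h₁ * a)
  let j₂ := IsScalarTower.toAlgHom k R R₂
  have hunit : IsUnit (j₂ (h₁ * a)) := IsLocalization.Away.algebraMap_isUnit (h₁ * a)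
  rw [map_mul, IsUnit.mul_iff] at hunit
  let ψ : Localization.Away h₁ →ₐ[k] R₂ := IsLocalization.Away.liftAlgHom h₁ hunit.1
  have hψ : ∀ b, ψ (j₁ b) = j₂ b := fun b => IsLocalization.Away.lift_eq _ hunit.1 b
  have hψu : IsUnit (ψ (x.toHom i.f)) := by
    have h := congrArg ψ ha
    rw [map_mul, map_pow, show ψ (algebraMap R _ h₁) = j₂ h₁ from hψ h₁,
      show ψ (algebraMap R _ a) = j₂ a from hψ a] at h
    exact isUnit_of_mul_isUnit_left (h ▸ hunit.2)
  have hM₂ : Pulls j₂ L.toPre (L.baseChange R₂).toPre := (L.toPre.toBaseChange R₂).pulls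
  have h₂ : Pulls ψ (L'.baseChange (Localization.Away h₁)).toPre
      ((L.baseChange R₂).tensor (twistDatum C i.S i.n R₂)).toPre := by
    refine hbase.restrict ?_
    rw [show ψ.comp j₁ = j₂ from AlgHom.ext hψ]
    exact hM₂.tensor (pulls_baseChange j₂ _)
  obtain ⟨E₃⟩ := (pulls_divisorDatum ψ x).nonempty_equiv (h₂.of_equiv E₁)
  obtain ⟨g', hg'⟩ := i.exists_pulls (ψ.comp x.toHom) hψu
    (L := L.baseChange R₂) (by
      rw [pt_map_map x ψ]
      exact (Datum.tensorCongr E₃ (Pre.Equiv.refl _)).trans (Datum.cancelDual' _ _))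
  exact ⟨g', _, hM₂, hg'⟩

variable (C) [C.HasPoints]

/-- The charts of degree zero data. -/
def datumCharts : DatumCharts C where
  ι := Index C
  A i := i.A
  smooth i := i.smooth
  Q i := i.Q
  degZero i := i.degZero
  mono i _ _ _ _ _ _ h h' := i.eq_of_pulls h h'
  exists_open i R _ _ L _ K _ _ f g M h h' := i.exists_open R L K f g M h h'
  cover K _ _ _ L hL := exists_index_pulls K L hL

end Fermat.Agent.Pic.Chart

end
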