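import Fermat.Agent.Pic.Cech.Chart
import Fermat.Agent.Pic.Cech.Tensor
import Fermat.Agent.Pic.Chart.Pulls

/-!
# Pullbacks of tensor products, divisors and constant data

The relation `Pulls` is compatible with tensor products, duals, divisors and data from the ground
field.
-/

noncomputable section

open TensorProduct

namespace Fermat.Agent.Pic.Cech

universe u

variable {k : Type u} [Field k] {C : Cover k}
  {R R' : Type u} [CommRing R] [Algebra k R] [CommRing R'] [Algebra k R'] {g : R →ₐ[k] R'}

/-- Pullbacks of tensor products. -/
theorem Pulls.tensor {L M : Datum C R} {L' M' : Datum C R'} (h : Pulls g L.toPre L'.toPre)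
    (h' : Pulls g M.toPre M'.toPre) : Pulls g (L.tensor M).toPre (L'.tensor M').toPre := by
  let : Algebra R R' := g.toRingHom.toAlgebra
  have : IsScalarTower k R R' := IsScalarTower.of_algebraMap_eq fun a => (g.commutes a).symm
  obtain ⟨h⟩ := h
  obtain ⟨h'⟩ := h'
  exact ⟨h.tensor h'⟩

/-- Pullbacks of a datum from the ground field. -/
theorem pulls_baseChange (g : R →ₐ[k] R') (N : Datum C k) :
    Pulls g (N.baseChange R).toPre (N.baseChange R').toPre := by
  refine Pulls.restrict (N.toPre.toBaseChange R).pulls ?_
  rw [show g.comp (IsScalarTower.toAlgHom k k R) = IsScalarTower.toAlgHom k k R' from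
    AlgHom.ext fun a => g.commutes a]
  exact (N.toPre.toBaseChange R').pulls

/-- A datum is its pullback along the identity. -/
theorem pulls_id (P : Pre C R) : Pulls (AlgHom.id k R) P P := by
  have h : Nonempty (BaseChange P P) := ⟨
    { b0 :=
        { toFun := fun x => x
          map_add' := fun _ _ => rfl
          map_smul' := fun a x => congrArg (· • x) (chartMap_self R a).symm }
      b1 :=
        { toFun := fun x => x
          map_add' := fun _ _ => rfl
          map_smul' := fun a x => congrArg (· • x) (chartMap_self R a).symm }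
      b01 :=
        { toFun := fun x => x
          map_add' := fun _ _ => rfl
          map_smul' := fun a x => congrArg (· • x) (chartMap_self R a).symm }
      comm0 := fun _ => rfl
      comm1 := fun _ => rfl
      exists_e0 := ⟨TensorProduct.lid R P.N0, fun x => one_smul R x⟩
      exists_e1 := ⟨TensorProduct.lid R P.N1, fun x => one_smul R x⟩
      exists_e01 := ⟨TensorProduct.lid R P.N01, fun x => one_smul R x⟩ }⟩
  obtain ⟨h⟩ := h
  rw [show AlgHom.id k R = IsScalarTower.toAlgHom k R R from AlgHom.ext fun _ => rfl]
  exact h.pulls

/-- The pullback by a pullback of isomorphic data. -/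
theorem Pulls.of_equiv {L M : Pre C R} {M' : Pre C R'} (h : Pulls g L M') (e : M.Equiv L) :
    Pulls g M M' := by
  let : Algebra R R' := g.toRingHom.toAlgebra
  have : IsScalarTower k R R' := IsScalarTower.of_algebraMap_eq fun a => (g.commutes a).symm
  obtain ⟨h⟩ := h
  exact ⟨((M.toBaseChange R').trans (e.baseChange R')).trans
    ((L.toBaseChange R').uniqueEquiv h)⟩

/-- A pullback with no `H¹`. -/
theorem Pulls.diff_surjective {L : Pre C R} {M : Pre C R'} (h : Pulls g L M)
    (hL : Function.Surjective L.diff) : Function.Surjective M.diff := by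
  let : Algebra R R' := g.toRingHom.toAlgebra
  have : IsScalarTower k R R' := IsScalarTower.of_algebraMap_eq fun a => (g.commutes a).symm
  obtain ⟨h⟩ := h
  exact h.diff_surjective hL

variable [IsAlgClosed k] [C.SmoothCharts] {ι : Type u} [Fintype ι] [DecidableEq ι] {e : ι → C.B01}

/-- Pullbacks of divisors. -/
theorem pulls_divisorDatum (g : R →ₐ[k] R') (x : Hilb.Pt k e R) :
    Pulls g (divisorDatum x).toPre (divisorDatum (x.map g)).toPre := by
  let : Algebra R R' := g.toRingHom.toAlgebra
  have : IsScalarTower k R R' := IsScalarTower.of_algebraMap_eq fun a => (g.commutes a).symm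
  have e : IsScalarTower.toAlgHom k R R' = g := AlgHom.ext fun _ => rfl
  have h : Nonempty (BaseChange (divisorDatum x).toPre
      (divisorDatum (x.map (IsScalarTower.toAlgHom k R R'))).toPre) := ⟨divisorBaseChange x⟩
  rw [e] at h
  exact h

theorem IsGood.map_algHom {x : Hilb.Pt k e R} (hx : IsGood x) (g : R →ₐ[k] R') :
    IsGood (x.map g) :=
  (pulls_divisorDatum g x).diff_surjective hx

namespace Datum

variable (L N : Datum C R)

/-- Twisting by a datum and by its dual cancels. -/
def cancelDual : ((L.tensor N.dual).tensor N).toPre.Equiv L.toPre :=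
  ((L.tensorAssoc N.dual N).trans
    (tensorCongr (M' := unitDatum C R) (Pre.Equiv.refl L.toPre) (tensorDual N))).trans L.tensorUnit

/-- Twisting by the dual and by a datum cancels. -/
def cancelDual' : ((L.tensor N).tensor N.dual).toPre.Equiv L.toPre :=
  ((L.tensorAssoc N N.dual).trans
    (tensorCongr (M' := unitDatum C R) (Pre.Equiv.refl L.toPre)
      ((N.tensorComm N.dual).trans (tensorDual N)))).trans L.tensorUnit

end Datum

end Fermat.Agent.Pic.Cech

end
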